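import Fermat.Agent.OmittingTypes.Basic

/-!
# Back and forth between atomic models

If every type realised in two countable models is isolated, tuples of the same type are extended
one point at a time on both sides, and the union of the extensions is an isomorphism.
-/

set_option autoImplicit false

universe u v w w'

namespace FA.OmittingTypes

open FirstOrder Language

variable {L : Language.{u, v}} {T : L.Theory} {M : Type w} {N : Type w'} [L.Structure M]
  [L.Structure N] [Nonempty M] [Nonempty N] [M ⊨ T] [N ⊨ T]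

/-- All types realised in the model are isolated. -/
def IsAtomicModel (T : L.Theory) (M : Type w) [L.Structure M] [Nonempty M] [M ⊨ T] : Prop :=
  ∀ (n : ℕ) (v : Fin n → M), IsIsolated (T.typeOf v)

/-- A tuple of the same type is extended by a point. -/
theorem exists_extend (hM : IsAtomicModel T M) {n : ℕ} {a : Fin n → M} {b : Fin n → N}
    (h : T.typeOf a = T.typeOf b) (x : M) :
    ∃ y : N, T.typeOf (Fin.snoc a x) = T.typeOf (Fin.snoc b y) := by
  obtain ⟨φ, hφ⟩ := hM (n + 1) (Fin.snoc a x)
  let g : Fin (n + 1) → Fin n ⊕ Fin 1 := Fin.lastCases (Sum.inr 0) Sum.inl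
  have ha : ((φ.relabel g).iExs (Fin 1)).Realize a :=
    Formula.realize_iExs.2 ⟨fun _ => x, Formula.realize_relabel.2 (by
      rw [(funext fun i => by induction i using Fin.lastCases <;> simp [g] :
        Sum.elim a (fun _ => x) ∘ g = Fin.snoc a x)]
      exact (hasFormula_typeOf (T := T) _ _).1 hφ.1)⟩
  have hb : ((φ.relabel g).iExs (Fin 1)).Realize b := by
    rw [← hasFormula_typeOf (T := T), ← h]
    exact (hasFormula_typeOf _ _).2 ha
  obtain ⟨z, hz⟩ := Formula.realize_iExs.1 hb
  have hz' := Formula.realize_relabel.1 hz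
  have e : Sum.elim b z ∘ g = Fin.snoc b (z 0) := funext fun i => by
    induction i using Fin.lastCases <;> simp [g]
  rw [e] at hz'
  exact ⟨z 0, (hφ.typeOf_eq hz').symm⟩

/-- A pair of tuples of one type. -/
structure SameType (T : L.Theory) (M : Type w) (N : Type w') [L.Structure M] [L.Structure N]
    [Nonempty M] [Nonempty N] [M ⊨ T] [N ⊨ T] where
  size : ℕ
  left : Fin size → M
  right : Fin size → N
  same : T.typeOf left = T.typeOf right

/-- **Countable atomic models of a complete theory are isomorphic.** -/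
theorem nonempty_equiv_of_atomic [Countable M] [Countable N] (hT : T.IsComplete)
    (hM : IsAtomicModel T M) (hN : IsAtomicModel T N) : Nonempty (M ≃[L] N) := by
  classical
  obtain ⟨e, he⟩ := exists_surjective_nat M
  obtain ⟨e', he'⟩ := exists_surjective_nat N
  have hempty : T.typeOf (Fin.elim0 : Fin 0 → M) = T.typeOf (Fin.elim0 : Fin 0 → N) := by
    refine type_ext fun φ => ?_
    rw [hasFormula_typeOf, hasFormula_typeOf]
    have e₁ : φ.Realize (Fin.elim0 : Fin 0 → M) ↔ M ⊨ (φ.relabel Fin.elim0 : L.Sentence) := by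
      rw [Sentence.Realize, Formula.realize_relabel]
      exact iff_of_eq (congrArg _ (Subsingleton.elim _ _))
    have e₂ : φ.Realize (Fin.elim0 : Fin 0 → N) ↔ N ⊨ (φ.relabel Fin.elim0 : L.Sentence) := by
      rw [Sentence.Realize, Formula.realize_relabel]
      exact iff_of_eq (congrArg _ (Subsingleton.elim _ _))
    rw [e₁, e₂, hT.realize_sentence_iff, hT.realize_sentence_iff]
  have hstep : ∀ (k : ℕ) (s : SameType T M N), ∃ t : SameType T M N,
      (∃ f : Fin s.size → Fin t.size,
      (∀ i, t.left (f i) = s.left i) ∧ ∀ i, t.right (f i) = s.right i) ∧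
        (∃ i, t.left i = e k) ∧ ∃ i, t.right i = e' k := by
    intro k s
    obtain ⟨y, hy⟩ := exists_extend hM s.same (e k)
    obtain ⟨x, hx⟩ := exists_extend hN hy.symm (e' k)
    refine ⟨⟨_, _, _, hx.symm⟩, ⟨fun i => i.castSucc.castSucc, ?_, ?_⟩,
      ⟨(Fin.last _).castSucc, ?_⟩, ⟨Fin.last _, ?_⟩⟩ <;> simp
  choose next hincl hl hr using hstep
  let stage : ℕ → SameType T M N := fun k =>
    Nat.rec ⟨0, Fin.elim0, Fin.elim0, hempty⟩ (fun j s => next j s) k
  let Pair : ℕ → M → N → Prop := fun k x y =>
    ∃ i, (stage k).left i = x ∧ (stage k).right i = y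
  have hmono : ∀ {k m : ℕ}, k ≤ m → ∀ {x y}, Pair k x y → Pair m x y := by
    intro k m hkm
    induction hkm with
    | refl => exact id
    | @step m _ ih =>
      intro x y h
      obtain ⟨i, rfl, rfl⟩ := ih h
      obtain ⟨f, hf, hf'⟩ := hincl m (stage m)
      exact ⟨f i, hf i, hf' i⟩
  have htot : ∀ x, ∃ y k, Pair k x y := fun x => by
    obtain ⟨k, rfl⟩ := he x
    obtain ⟨i, hi⟩ := hl k (stage k)
    exact ⟨_, k + 1, i, hi, rfl⟩
  have hsur : ∀ y, ∃ x k, Pair k x y := fun y => by
    obtain ⟨k, rfl⟩ := he' y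
    obtain ⟨i, hi⟩ := hr k (stage k)
    exact ⟨_, k + 1, i, rfl, hi⟩
  have hform : ∀ {m : ℕ} (φ : L.Formula (Fin m)) (x : Fin m → M) (y : Fin m → N),
      (∀ j, ∃ k, Pair k (x j) (y j)) → (φ.Realize x ↔ φ.Realize y) := by
    intro m φ x y hxy
    choose k hk using hxy
    choose i hi hi' using fun j => hmono (Finset.le_sup (Finset.mem_univ j) : k j ≤
      Finset.univ.sup k) (hk j)
    obtain rfl : x = (stage (Finset.univ.sup k)).left ∘ i := funext fun j => (hi j).symm
    obtain rfl : y = (stage (Finset.univ.sup k)).right ∘ i := funext fun j => (hi' j).symm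
    rw [← Formula.realize_relabel, ← Formula.realize_relabel, ← hasFormula_typeOf (T := T),
      ← hasFormula_typeOf (T := T), (stage (Finset.univ.sup k)).same]
  choose F kF hF using htot
  choose G kG hG using hsur
  have hfun : ∀ {x : M} {y : N} {k : ℕ}, Pair k x y → F x = y := fun {x y k} h => by
    have := (hform (Term.equal (.var (0 : Fin 2)) (.var 1)) ![x, x] ![F x, y]
      (Fin.forall_fin_two.2 ⟨⟨_, hF x⟩, ⟨k, h⟩⟩)).1 (by simp [Formula.realize_equal])
    simpa [Formula.realize_equal] using this
  have hinj : Function.Injective F := fun x x' h => by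
    have := (hform (Term.equal (.var (0 : Fin 2)) (.var 1)) ![x, x'] ![F x, F x']
      (Fin.forall_fin_two.2 ⟨⟨_, hF x⟩, ⟨_, hF x'⟩⟩)).2 (by simp [Formula.realize_equal, h])
    simpa [Formula.realize_equal] using this
  refine ⟨⟨Equiv.ofBijective F ⟨hinj, fun y => ⟨G y, hfun (hG y)⟩⟩, fun {m} g x => ?_,
    fun {m} R x => ?_⟩⟩
  · let φ : L.Formula (Fin (m + 1)) :=
      Term.equal (Term.func g fun i => .var i.castSucc) (.var (Fin.last m))
    have := (hform φ (Fin.snoc x (Structure.funMap g x))
      (Fin.snoc (F ∘ x) (F (Structure.funMap g x))) (fun j => by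
        induction j using Fin.lastCases with
        | last => simpa using ⟨_, hF _⟩
        | cast j => simpa using ⟨_, hF (x j)⟩)).1 (by simp [φ, Formula.realize_equal])
    change F (Structure.funMap g x) = Structure.funMap g (F ∘ x)
    simpa [φ, Formula.realize_equal, Function.comp_def] using this.symm
  · have := hform (R.formula fun i => .var i) x (F ∘ x) fun j => ⟨_, hF (x j)⟩
    change Structure.RelMap R (F ∘ x) ↔ Structure.RelMap R x
    simpa [Function.comp_def] using this.symm

end FA.OmittingTypes
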