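import Mathlib.ModelTheory.Topology.Types
import Mathlib.ModelTheory.Skolem
import Mathlib.Topology.Baire.Lemmas

/-!
# Formulas in a complete type, and isolated types

A formula belongs to a type when its sentence with constants does. A type is isolated, relative to
the theory, by a formula of which it is the only type, that is when it is an isolated point.
-/

set_option autoImplicit false

universe u v w w'

namespace FA.OmittingTypes

open FirstOrder Language

variable {L : Language.{u, v}} {T : L.Theory} {α : Type w}

/-- A formula belongs to a type. -/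
def HasFormula (p : T.CompleteType α) (φ : L.Formula α) : Prop :=
  Formula.equivSentence φ ∈ p

theorem hasFormula_typeOf {M : Type w'} [L.Structure M] [Nonempty M] [M ⊨ T] (v : α → M)
    (φ : L.Formula α) : HasFormula (T.typeOf v) φ ↔ φ.Realize v :=
  Theory.CompleteType.formula_mem_typeOf

theorem type_ext {p q : T.CompleteType α} (h : ∀ φ, HasFormula p φ ↔ HasFormula q φ) : p = q :=
  SetLike.ext fun σ => by simpa [HasFormula] using h (Formula.equivSentence.symm σ)

/-- Every type is the type of a tuple. -/
theorem exists_realization (p : T.CompleteType α) :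
    ∃ (M : Theory.ModelType.{u, v, max u v w} T) (v : α → M), T.typeOf v = p := by
  obtain ⟨M, x, hx⟩ := Theory.exists_modelType_is_realized_in T p
  exact ⟨M, x, hx⟩

theorem hasFormula_not (p : T.CompleteType α) (φ : L.Formula α) :
    HasFormula p φ.not ↔ ¬HasFormula p φ := by
  rw [HasFormula, Formula.equivSentence_not]
  exact p.not_mem_iff _

/-- A formula isolates a type. -/
def Isolates (φ : L.Formula α) (p : T.CompleteType α) : Prop :=
  HasFormula p φ ∧ ∀ q : T.CompleteType α, HasFormula q φ → q = p

/-- A type is isolated, relative to the theory. -/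
def IsIsolated (p : T.CompleteType α) : Prop :=
  ∃ φ, Isolates φ p

theorem Isolates.typeOf_eq {φ : L.Formula α} {p : T.CompleteType α} (h : Isolates φ p)
    {M : Type w'} [L.Structure M] [Nonempty M] [M ⊨ T] {v : α → M} (hv : φ.Realize v) :
    T.typeOf v = p :=
  h.2 _ ((hasFormula_typeOf v φ).2 hv)

theorem isOpen_setOf_hasFormula (φ : L.Formula α) :
    IsOpen {p : T.CompleteType α | HasFormula p φ} :=
  CompleteType.isOpen_typesWith _

/-- A type is isolated if and only if it is an isolated point. -/
theorem isIsolated_iff_isOpen (p : T.CompleteType α) : IsIsolated p ↔ IsOpen ({p} : Set _) := by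
  constructor
  · rintro ⟨φ, hp, huniq⟩
    convert isOpen_setOf_hasFormula (T := T) φ
    exact Set.ext fun q => ⟨fun hq => by rw [Set.mem_singleton_iff.1 hq]; exact hp, huniq q⟩
  · intro h
    obtain ⟨_, ⟨σ, rfl⟩, hp, hsub⟩ :=
      CompleteType.isTopologicalBasis_range_typesWith.exists_subset_of_mem_open
        (Set.mem_singleton p) h
    refine ⟨Formula.equivSentence.symm σ, ?_, fun q hq => hsub ?_⟩
    · simpa [HasFormula] using hp
    · simpa [HasFormula] using hq

/-- A formula at given variables. -/
def atVars {m : ℕ} (ψ : L.BoundedFormula Empty m) (t : Fin m → α) : L.Formula α :=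
  ψ.toFormula.relabel (Sum.elim Empty.elim t)

theorem realize_atVars {M : Type w'} [L.Structure M] {m : ℕ} (ψ : L.BoundedFormula Empty m)
    (t : Fin m → α) (v : α → M) :
    (atVars ψ t).Realize v ↔ ψ.Realize (default : Empty → M) (v ∘ t) := by
  rw [atVars, Formula.realize_relabel, BoundedFormula.realize_toFormula]
  exact iff_of_eq (congrArg₂ _ (Subsingleton.elim _ _) rfl)

/-- Only the variables of a formula matter. -/
theorem realize_congr_vars [DecidableEq α] {M : Type w'} [L.Structure M] {φ : L.Formula α}
    {v v' : α → M} (h : ∀ a ∈ BoundedFormula.freeVarFinset φ, v a = v' a) :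
    φ.Realize v ↔ φ.Realize v' := by
  simp only [Formula.Realize]
  rw [← BoundedFormula.realize_restrictFreeVar' (Set.Subset.refl _) (v := v),
    ← BoundedFormula.realize_restrictFreeVar' (Set.Subset.refl _) (v := v')]
  exact iff_of_eq (congrArg₂ _ (funext fun a => h a.1 a.2) rfl)

/-- An isolated type of a complete theory is realised in every model. -/
theorem exists_typeOf_eq {n : ℕ} (hT : T.IsComplete) {p : T.CompleteType (Fin n)}
    (hp : IsIsolated p) (M : Type w') [L.Structure M] [Nonempty M] [M ⊨ T] :
    ∃ v : Fin n → M, T.typeOf v = p := by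
  obtain ⟨φ, hφ⟩ := hp
  obtain ⟨N, x, rfl⟩ := exists_realization p
  have e : ∀ (K : Type _) [L.Structure K],
      (K ⊨ ((φ.relabel Sum.inr).iExs (Fin n) : L.Sentence)) ↔ ∃ v : Fin n → K, φ.Realize v :=
    fun K _ => by
      simp [Sentence.Realize, Formula.realize_iExs, Formula.realize_relabel]
  have hN : N ⊨ ((φ.relabel Sum.inr).iExs (Fin n) : L.Sentence) :=
    (e N).2 ⟨x, (hasFormula_typeOf x φ).1 hφ.1⟩
  have hM : M ⊨ ((φ.relabel Sum.inr).iExs (Fin n) : L.Sentence) :=
    (hT.realize_sentence_iff _ M).2 ((hT.realize_sentence_iff _ N).1 hN)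
  obtain ⟨v, hv⟩ : ∃ v : Fin n → M, φ.Realize v := by
    simpa [Sentence.Realize, Formula.realize_iExs, Formula.realize_relabel] using hM
  exact ⟨v, hφ.typeOf_eq hv⟩

end FA.OmittingTypes
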