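import Fermat.Agent.OmittingTypes.Basic

/-!
# Omitting types

In the compact space of types of sequences the types of enumerations of elementary substructures
form a dense intersection of countably many open sets, and so do those which omit a given type that
is not isolated.
-/

set_option autoImplicit false

universe u v

namespace FA.OmittingTypes

open FirstOrder Language

variable {L : Language.{u, v}} {T : L.Theory}

/-- A witness for a formula, if there is one, is among the variables. -/
def witnessSet (c : Σ n, L.BoundedFormula Empty (n + 1) × (Fin n → ℕ)) :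
    Set (T.CompleteType ℕ) :=
  {p | ¬HasFormula p (atVars c.2.1.ex c.2.2)} ∪
    ⋃ j : ℕ, {p | HasFormula p (atVars c.2.1 (Fin.snoc c.2.2 j))}

theorem isOpen_witnessSet (c : Σ n, L.BoundedFormula Empty (n + 1) × (Fin n → ℕ)) :
    IsOpen (witnessSet (T := T) c) := by
  refine IsOpen.union ?_ (isOpen_iUnion fun j => isOpen_setOf_hasFormula _)
  simp only [← hasFormula_not]
  exact isOpen_setOf_hasFormula _

theorem dense_witnessSet (c : Σ n, L.BoundedFormula Empty (n + 1) × (Fin n → ℕ)) :
    Dense (witnessSet (T := T) c) := by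
  classical
  obtain ⟨n, ψ, s⟩ := c
  rw [CompleteType.isTopologicalBasis_range_typesWith.dense_iff]
  rintro _ ⟨σ, rfl⟩ ⟨p, hp⟩
  obtain ⟨M, x, rfl⟩ := exists_realization p
  by_cases hx : (atVars ψ.ex s).Realize x
  · rw [realize_atVars, BoundedFormula.realize_ex] at hx
    obtain ⟨a, ha⟩ := hx
    obtain ⟨j, hj⟩ := ((BoundedFormula.freeVarFinset (Formula.equivSentence.symm σ)) ∪
      Finset.univ.image s).exists_notMem
    simp only [Finset.mem_union, Finset.mem_image, Finset.mem_univ, true_and, not_or,
      not_exists] at hj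
    refine ⟨T.typeOf (Function.update x j a), ?_, .inr (Set.mem_iUnion.2 ⟨j, ?_⟩)⟩
    · rw [Theory.CompleteType.mem_typesWith_iff, Theory.CompleteType.mem_typeOf,
        realize_congr_vars (v' := x) fun b hb => Function.update_of_ne (by
          rintro rfl
          exact hj.1 hb) _ _]
      exact (Theory.CompleteType.mem_typeOf (T := T)).1 hp
    · refine (hasFormula_typeOf (T := T) _ _).2 ((realize_atVars _ _ _).2 ?_)
      convert ha using 2
      funext i
      induction i using Fin.lastCases with
      | last => simp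
      | cast i => simp [Function.update_of_ne (hj.2 i)]
  · exact ⟨_, hp, .inl fun h => hx ((hasFormula_typeOf (T := T) _ _).1 h)⟩

/-- A type is avoided by given variables. -/
def omitSet {n : ℕ} (q : T.CompleteType (Fin n)) (s : Fin n → ℕ) : Set (T.CompleteType ℕ) :=
  ⋃ χ : {χ : L.Formula (Fin n) // HasFormula q χ}, {p | ¬HasFormula p (χ.1.relabel s)}

theorem isOpen_omitSet {n : ℕ} (q : T.CompleteType (Fin n)) (s : Fin n → ℕ) :
    IsOpen (omitSet q s) := by
  refine isOpen_iUnion fun χ => ?_
  simp only [← hasFormula_not]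
  exact isOpen_setOf_hasFormula _

theorem dense_omitSet {n : ℕ} {q : T.CompleteType (Fin n)} (hq : ¬IsIsolated q)
    (s : Fin n → ℕ) : Dense (omitSet q s) := by
  classical
  rw [CompleteType.isTopologicalBasis_range_typesWith.dense_iff]
  rintro _ ⟨σ, rfl⟩ ⟨p, hp⟩
  obtain ⟨M, x, rfl⟩ := exists_realization p
  rw [Theory.CompleteType.mem_typesWith_iff, Theory.CompleteType.mem_typeOf] at hp
  set ρ : L.Formula ℕ := Formula.equivSentence.symm σ
  by_contra hempty
  let F := BoundedFormula.freeVarFinset ρ ∪ Finset.univ.image s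
  have hsub : ∀ i, s i ∈ F := fun i =>
    Finset.mem_union_right _ (Finset.mem_image_of_mem _ (Finset.mem_univ i))
  let r : BoundedFormula.freeVarFinset ρ → Fin n ⊕ F := fun a =>
    Sum.inr ⟨a.1, Finset.mem_union_left _ a.2⟩
  let body : L.Formula (Fin n ⊕ F) := BoundedFormula.restrictFreeVar ρ r ⊓
    Formula.iInf fun i => Term.equal (.var (.inl i)) (.var (.inr ⟨s i, hsub i⟩))
  have hbody : ∀ (K : Theory.ModelType.{u, v, max u v} T) (y : Fin n → K) (z : F → K)
      (z' : ℕ → K), (∀ a : F, z' a = z a) → (body.Realize (Sum.elim y z) ↔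
        ρ.Realize z' ∧ ∀ i, y i = z ⟨s i, hsub i⟩) := by
    intro K y z z' hz
    simp only [body, Formula.realize_inf, Formula.realize_iInf, Formula.realize_equal,
      Term.realize_var, Sum.elim_inl, Sum.elim_inr]
    refine and_congr_left' ?_
    exact BoundedFormula.realize_restrictFreeVar z' fun a => (hz _).symm
  let θ : L.Formula (Fin n) := body.iExs F
  have key : ∀ (K : Theory.ModelType.{u, v, max u v} T) (y : Fin n → K), θ.Realize y →
      T.typeOf y = q := by
    intro K y hy
    obtain ⟨z, hz⟩ := Formula.realize_iExs.1 hy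
    let z' : ℕ → K := fun a => if ha : a ∈ F then z ⟨a, ha⟩ else Classical.arbitrary K
    have hz' : ∀ a : F, z' a = z a := fun a => dif_pos a.2
    obtain ⟨hρ, hyz⟩ := (hbody K y z z' hz').1 hz
    have hys : z' ∘ s = y := funext fun i => ((hz' ⟨s i, hsub i⟩).trans (hyz i).symm)
    have hall : ∀ χ, HasFormula q χ → HasFormula (T.typeOf y) χ := by
      intro χ hχ
      rw [hasFormula_typeOf, ← hys]
      by_contra hn
      refine hempty ⟨T.typeOf z', (Theory.CompleteType.mem_typeOf (T := T)).2 hρ,
        Set.mem_iUnion.2 ⟨⟨χ, hχ⟩, fun h => hn ?_⟩⟩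
      exact Formula.realize_relabel.1 ((hasFormula_typeOf (T := T) _ _).1 h)
    refine type_ext fun χ => ⟨fun h => ?_, hall χ⟩
    by_contra hn
    exact (hasFormula_not _ χ).1 (hall _ ((hasFormula_not q χ).2 hn)) h
  have hθ : θ.Realize (x ∘ s) :=
    Formula.realize_iExs.2 ⟨fun a => x a, (hbody M _ _ x fun _ => rfl).2 ⟨hp, fun _ => rfl⟩⟩
  refine hq ⟨θ, ?_, fun p' hp' => ?_⟩
  · rw [← key M _ hθ]
    exact (hasFormula_typeOf (T := T) _ _).2 hθ
  · obtain ⟨K, y, rfl⟩ := exists_realization p'
    exact key K y ((hasFormula_typeOf (T := T) _ _).1 hp')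

/-- **The omitting types theorem.** -/
theorem exists_countable_omitting [Countable L.Symbols] (hT : T.IsSatisfiable) {ι : Type*}
    [Countable ι] {n : ι → ℕ} (q : ∀ i, T.CompleteType (Fin (n i)))
    (hq : ∀ i, ¬IsIsolated (q i)) :
    ∃ M : Theory.ModelType.{u, v, max u v} T, Countable M ∧
      ∀ i (v : Fin (n i) → M), T.typeOf v ≠ q i := by
  have : Nonempty (T.CompleteType ℕ) := Theory.CompleteType.nonempty_iff.2 hT
  have : Countable (Σ n, L.BoundedFormula Empty (n + 1) × (Fin n → ℕ)) := by
    have : ∀ m, Countable (L.BoundedFormula Empty m) := fun m =>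
      Function.Injective.countable (f := fun φ => (⟨m, φ⟩ : Σ k, L.BoundedFormula Empty k))
        sigma_mk_injective
    infer_instance
  let f : (Σ n, L.BoundedFormula Empty (n + 1) × (Fin n → ℕ)) ⊕ (Σ i, Fin (n i) → ℕ) →
      Set (T.CompleteType ℕ) := Sum.elim witnessSet fun c => omitSet (q c.1) c.2
  obtain ⟨p, hp⟩ := (dense_iInter_of_isOpen (f := f)
    (fun c => by
      cases c
      exacts [isOpen_witnessSet _, isOpen_omitSet _ _])
    (fun c => by
      cases c
      exacts [dense_witnessSet _, dense_omitSet (hq _) _])).nonempty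
  rw [Set.mem_iInter] at hp
  obtain ⟨M, x, rfl⟩ := exists_realization p
  have hwit : ∀ {m : ℕ} (ψ : L.BoundedFormula Empty (m + 1)) (s : Fin m → ℕ),
      (∃ a, ψ.Realize (default : Empty → M) (Fin.snoc (x ∘ s) a)) →
        ∃ j, ψ.Realize (default : Empty → M) (Fin.snoc (x ∘ s) (x j)) := by
    intro m ψ s hex
    rcases hp (.inl ⟨m, ψ, s⟩) with h | h
    · exact absurd ((hasFormula_typeOf (T := T) _ _).2
        ((realize_atVars _ _ _).2 (BoundedFormula.realize_ex.2 hex))) h
    · obtain ⟨j, hj⟩ := Set.mem_iUnion.1 h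
      have := (realize_atVars _ _ _).1 ((hasFormula_typeOf (T := T) _ _).1 hj)
      exact ⟨j, by rwa [Fin.comp_snoc] at this⟩
  let S : L.Substructure M :=
    { carrier := Set.range x
      fun_mem := fun {m} g xs hxs => by
        choose s hs using hxs
        obtain ⟨j, hj⟩ := hwit (BoundedFormula.equal
          (Term.func g fun i => .var (.inr i.castSucc)) (.var (.inr (Fin.last m)))) s
          ⟨Structure.funMap g xs, by
            simp [BoundedFormula.Realize, show x ∘ s = xs from funext hs]⟩
        refine ⟨j, ?_⟩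
        simpa [BoundedFormula.Realize, show x ∘ s = xs from funext hs] using hj.symm }
  let E : L.ElementarySubstructure M := S.toElementarySubstructure fun m ψ y a ha => by
    choose s hs using fun i => (y i).2
    have e : x ∘ s = ((↑) : S → M) ∘ y := funext hs
    obtain ⟨j, hj⟩ := hwit ψ s ⟨a, by rwa [e]⟩
    exact ⟨⟨x j, j, rfl⟩, by rwa [e] at hj⟩
  have : Countable E := (Set.countable_range x).to_subtype
  refine ⟨Theory.ModelType.of T E, ‹Countable E›, fun i v hv => ?_⟩
  choose s hs using fun k => (v k).2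
  rcases Set.mem_iUnion.1 (hp (.inr ⟨i, s⟩)) with ⟨χ, hχ⟩
  refine hχ ((hasFormula_typeOf (T := T) _ _).2 (Formula.realize_relabel.2 ?_))
  have h1 : HasFormula (T.typeOf v) χ.1 := by
    rw [hv]
    exact χ.2
  rw [show x ∘ s = E.subtype ∘ v from funext hs]
  exact (E.subtype.map_formula χ.1 v).2 ((hasFormula_typeOf (T := T) _ _).1 h1)

end FA.OmittingTypes
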