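import Fermat.Agent.OmittingTypes.Omitting
import Fermat.Agent.OmittingTypes.BackForth
import Mathlib.ModelTheory.Equivalence

/-!
# The theorem of Ryll-Nardzewski

A countable complete theory with an infinite model is categorical in the countable cardinal if
and only if all its types are isolated, if and only if in each number of variables it has finitely
many types, if and only if in each number of variables it has finitely many formulas up to
equivalence.
-/

set_option autoImplicit false

universe u v w

namespace FA.OmittingTypes

open FirstOrder Language Cardinal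

variable {L : Language.{u, v}} {T : L.Theory}

/-- All models of a complete theory with an infinite model are infinite. -/
theorem infinite_of_isComplete (hT : T.IsComplete) (M₀ : Theory.ModelType.{u, v, w} T)
    [Infinite M₀] (M : Type*) [L.Structure M] [Nonempty M] [M ⊨ T] : Infinite M := by
  rw [infinite_iff, aleph0_le]
  intro n
  rw [← Sentence.realize_cardGe (L := L), hT.realize_sentence_iff, ← hT.realize_sentence_iff _ M₀,
    Sentence.realize_cardGe]
  exact natCast_le_aleph0.trans (infinite_iff.1 ‹_›)

/-- In a countable categorical theory every type is isolated. -/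
theorem isIsolated_of_categorical [Countable L.Symbols] (hT : T.IsComplete)
    (M₀ : Theory.ModelType.{u, v, max u v} T) [Infinite M₀]
    (h : (ℵ₀ : Cardinal.{max u v}).Categorical T) {n : ℕ} (p : T.CompleteType (Fin n)) :
    IsIsolated p := by
  by_contra hp
  obtain ⟨M, hM, homit⟩ := exists_countable_omitting hT.1 (ι := Unit) (n := fun _ => n)
    (fun _ => p) fun _ => hp
  obtain ⟨N, v, rfl⟩ := exists_realization p
  have : Infinite M := infinite_of_isComplete hT M₀ M
  have : Infinite N := infinite_of_isComplete hT M₀ N
  obtain ⟨E, hE, hcard⟩ := exists_elementarySubstructure_card_eq L (Set.range v)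
    (ℵ₀ : Cardinal.{max u v}) le_rfl (by simp)
    (by simpa [Language.card] using mk_le_aleph0 (α := L.Symbols))
    (by simp)
  obtain ⟨e⟩ := h M (Theory.ModelType.of T E) (mk_eq_aleph0 M) (by simpa using hcard)
  let v' : Fin n → E := fun i => ⟨v i, hE (Set.mem_range_self i)⟩
  refine homit () (e.symm ∘ v') (type_ext fun φ => ?_)
  rw [hasFormula_typeOf, hasFormula_typeOf, show v = E.subtype ∘ v' from rfl,
    E.subtype.map_formula]
  exact StrongHomClass.realize_formula e.symm φ

/-- If all types are isolated the countable models are isomorphic. -/
theorem categorical_of_isIsolated (hT : T.IsComplete)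
    (h : ∀ (n : ℕ) (p : T.CompleteType (Fin n)), IsIsolated p) :
    (ℵ₀ : Cardinal.{w}).Categorical T := fun M N hM hN => by
  have : Countable M := mk_le_aleph0_iff.1 hM.le
  have : Countable N := mk_le_aleph0_iff.1 hN.le
  exact nonempty_equiv_of_atomic hT (fun n v => h n _) fun n v => h n _

/-- All types are isolated if and only if there are finitely many. -/
theorem forall_isIsolated_iff_finite {α : Type w} :
    (∀ p : T.CompleteType α, IsIsolated p) ↔ Finite (T.CompleteType α) := by
  constructor
  · intro h
    have : DiscreteTopology (T.CompleteType α) :=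
      discreteTopology_iff_isOpen_singleton.2 fun p => (isIsolated_iff_isOpen p).1 (h p)
    exact finite_of_compact_of_discrete
  · intro _ p
    exact (isIsolated_iff_isOpen p).2 (isOpen_discrete _)

/-- The types are finitely many if and only if the formulas are, up to equivalence. -/
theorem finite_iff_exists_finset {n : ℕ} : Finite (T.CompleteType (Fin n)) ↔
    ∃ S : Finset (L.Formula (Fin n)), ∀ φ, ∃ ψ ∈ S, φ ⇔[T] ψ := by
  classical
  constructor
  · intro _
    let g : L.Formula (Fin n) → Set (T.CompleteType (Fin n)) := fun φ => {p | HasFormula p φ}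
    have := Fintype.ofFinite (Set.range g)
    refine ⟨Finset.univ.image fun c : Set.range g => c.2.choose, fun φ => ⟨_,
      Finset.mem_image_of_mem _ (Finset.mem_univ ⟨g φ, φ, rfl⟩), ?_⟩⟩
    have e : g (Set.mem_range_self (f := g) φ).choose = g φ :=
      (Set.mem_range_self (f := g) φ).choose_spec
    refine Theory.models_formula_iff.2 fun M x => Formula.realize_iff.2 ?_
    rw [← hasFormula_typeOf (T := T) x φ, ← hasFormula_typeOf (T := T) x]
    exact (Set.ext_iff.1 e (T.typeOf x)).symm
  · rintro ⟨S, hS⟩
    refine Finite.of_injective
      (fun p : T.CompleteType (Fin n) => fun ψ : S => decide (HasFormula p ψ.1)) fun p q hpq => ?_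
    refine type_ext fun φ => ?_
    obtain ⟨ψ, hψ, hφψ⟩ := hS φ
    have key : ∀ r : T.CompleteType (Fin n), HasFormula r φ ↔ HasFormula r ψ := by
      intro r
      obtain ⟨K, x, rfl⟩ := exists_realization r
      rw [hasFormula_typeOf, hasFormula_typeOf]
      exact hφψ.realize_iff
    rw [key, key]
    simpa using congrFun hpq ⟨ψ, hψ⟩

/-- In a countable complete theory the isolated types are those realised in all models. -/
theorem isIsolated_iff_forall_realized [Countable L.Symbols] (hT : T.IsComplete) {n : ℕ}
    (p : T.CompleteType (Fin n)) : IsIsolated p ↔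
      ∀ M : Theory.ModelType.{u, v, max u v} T, ∃ x : Fin n → M, T.typeOf x = p := by
  refine ⟨fun h M => exists_typeOf_eq hT h M, fun h => ?_⟩
  by_contra hp
  obtain ⟨M, -, homit⟩ := exists_countable_omitting hT.1 (ι := Unit) (n := fun _ => n)
    (fun _ => p) fun _ => hp
  obtain ⟨x, hx⟩ := h M
  exact homit () x hx

end FA.OmittingTypes
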